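import Fermat.Agent.Weight1.FiniteImage
import Mathlib.NumberTheory.Zsqrtd.Basic

/-!
# Congruences of algebraic integers at a place over `3`; small facts on `GL₂(𝔽₃)`
-/

set_option autoImplicit false

noncomputable section

namespace FA.LTReduce

local notation "ZB" => integralClosure ℤ ℂ
local notation "F3" => ZMod 3
local notation "G3" => GL (Fin 2) (ZMod 3)

section Cong

variable {k : Type} [Field k] (φ : ZB →+* k)

/-- `z` is an algebraic integer with image `c`. -/
def Cong (z : ℂ) (c : k) : Prop := ∃ a : ZB, (a : ℂ) = z ∧ φ a = c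

variable {φ} {z w : ℂ} {c d : k}

theorem Cong.unique (h : Cong φ z c) (h' : Cong φ z d) : c = d := by
  obtain ⟨a, ha, rfl⟩ := h
  obtain ⟨b, hb, rfl⟩ := h'
  rw [Subtype.ext (ha.trans hb.symm)]

theorem Cong.add (h : Cong φ z c) (h' : Cong φ w d) : Cong φ (z + w) (c + d) := by
  obtain ⟨a, rfl, rfl⟩ := h
  obtain ⟨b, rfl, rfl⟩ := h'
  exact ⟨a + b, rfl, map_add φ a b⟩

theorem Cong.sub (h : Cong φ z c) (h' : Cong φ w d) : Cong φ (z - w) (c - d) := by
  obtain ⟨a, rfl, rfl⟩ := h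
  obtain ⟨b, rfl, rfl⟩ := h'
  exact ⟨a - b, rfl, map_sub φ a b⟩

theorem Cong.mul (h : Cong φ z c) (h' : Cong φ w d) : Cong φ (z * w) (c * d) := by
  obtain ⟨a, rfl, rfl⟩ := h
  obtain ⟨b, rfl, rfl⟩ := h'
  exact ⟨a * b, rfl, map_mul φ a b⟩

theorem Cong.pow (h : Cong φ z c) (n : ℕ) : Cong φ (z ^ n) (c ^ n) := by
  obtain ⟨a, rfl, rfl⟩ := h
  exact ⟨a ^ n, rfl, map_pow φ a n⟩

theorem cong_intCast (n : ℤ) : Cong φ (n : ℂ) (n : k) := ⟨(n : ZB), by norm_num, map_intCast φ n⟩

theorem cong_natCast (n : ℕ) : Cong φ (n : ℂ) (n : k) := by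
  simpa using cong_intCast (φ := φ) (n : ℤ)

theorem cong_one : Cong φ (1 : ℂ) (1 : k) := ⟨1, rfl, map_one φ⟩

theorem exists_cong_of_isIntegral (h : IsIntegral ℤ z) : ∃ c, Cong φ z c :=
  ⟨φ ⟨z, h⟩, ⟨z, h⟩, rfl, rfl⟩

theorem exists_cong_of_pow {n : ℕ} (hn : 0 < n) (h : z ^ n = 1) : ∃ c, Cong φ z c :=
  exists_cong_of_isIntegral (IsIntegral.of_pow hn (by rw [h]; exact isIntegral_one))

variable [CharP k 3]

/-- A root of unity congruent to `1` has order a power of `3`. -/
theorem exists_three_pow {n : ℕ} (hn : 0 < n) (hz : z ^ n = 1) (h : Cong φ z 1) :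
    ∃ r : ℕ, 3 ^ r ∣ n ∧ z ^ (3 ^ r) = 1 := by
  obtain ⟨r, m, hm, rfl⟩ := Nat.exists_eq_pow_mul_and_not_dvd hn.ne' 3 (by norm_num)
  refine ⟨r, dvd_mul_right _ _, ?_⟩
  rw [pow_mul] at hz
  by_contra hne
  have hw : Cong φ (z ^ 3 ^ r) 1 := by simpa using h.pow (3 ^ r)
  obtain ⟨a, ha, ha1⟩ := hw
  have hsum : ∑ i ∈ Finset.range m, (z ^ 3 ^ r) ^ i = 0 := by
    rw [geom_sum_eq hne, hz, sub_self, zero_div]
  have hsum' : ∑ i ∈ Finset.range m, a ^ i = 0 := by
    apply Subtype.ext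
    push_cast
    rw [ha]
    exact hsum
  have := congrArg φ hsum'
  rw [map_sum, map_zero] at this
  simp only [map_pow, ha1, one_pow, Finset.sum_const, Finset.card_range, nsmul_one] at this
  exact hm ((CharP.cast_eq_zero_iff k 3 m).mp this)

/-- Roots of unity of order dividing `8` are distinguished modulo the place. -/
theorem eq_of_cong_eight (hz : z ^ 8 = 1) (hw : w ^ 8 = 1) (h : Cong φ z c) (h' : Cong φ w c) :
    z = w := by
  have hw0 : w ≠ 0 := fun h0 => by simp [h0] at hw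
  have hc8 : c ^ 8 = 1 := (h.pow 8).unique (by rw [hz]; exact cong_one)
  have hu : Cong φ (z * w ^ 7) 1 := by
    have := h.mul (h'.pow 7)
    rwa [← pow_succ', hc8] at this
  have hu8 : (z * w ^ 7) ^ 8 = 1 := by
    rw [mul_pow, ← pow_mul, mul_comm 7 8, pow_mul, hz, hw, one_pow, one_mul]
  obtain ⟨r, hr, hr1⟩ := exists_three_pow (by norm_num) hu8 hu
  have hr0 : r = 0 := by
    by_contra hr0
    have : 3 ∣ 8 := (dvd_pow_self 3 hr0).trans hr
    norm_num at this
  subst hr0
  rw [pow_zero, pow_one] at hr1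
  calc z = z * w ^ 8 := by rw [hw, mul_one]
    _ = z * w ^ 7 * w := by ring
    _ = w := by rw [hr1, one_mul]

end Cong

/-! ### `GL₂(𝔽₃)` -/

/-- A scalar matrix in `GL₂`. -/
def scal (R : Type) [CommRing R] : Rˣ →* GL (Fin 2) R :=
  Units.map (algebraMap R (Matrix (Fin 2) (Fin 2) R)).toMonoidHom

theorem scal_val {R : Type} [CommRing R] (c : Rˣ) :
    (scal R c).val = (c : R) • (1 : Matrix (Fin 2) (Fin 2) R) := by
  simp [scal, Algebra.algebraMap_eq_smul_one]

theorem trace_scal_mul {R : Type} [CommRing R] (c : Rˣ) (g : GL (Fin 2) R) :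
    (scal R c * g).val.trace = c * g.val.trace := by
  rw [Units.val_mul, scal_val, smul_mul_assoc, one_mul, Matrix.trace_smul, smul_eq_mul]

theorem det_scal_mul {R : Type} [CommRing R] (c : Rˣ) (g : GL (Fin 2) R) :
    (scal R c * g).val.det = c ^ 2 * g.val.det := by
  rw [Units.val_mul, scal_val, smul_mul_assoc, one_mul, Matrix.det_smul, Fintype.card_fin]

theorem scal_mul_comm {R : Type} [CommRing R] (c : Rˣ) (g : GL (Fin 2) R) :
    scal R c * g = g * scal R c := by
  apply Units.ext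
  rw [Units.val_mul, Units.val_mul, scal_val, smul_mul_assoc, one_mul, mul_smul_comm, mul_one]

/-- An element of `GL₂(𝔽₃)` from its entries. -/
def mk3 (p q r s : F3) (h : p * s - q * r ≠ 0) : G3 :=
  Matrix.GeneralLinearGroup.mkOfDetNeZero !![p, q; r, s] (by rwa [Matrix.det_fin_two_of])

theorem mk3_val (p q r s : F3) (h : p * s - q * r ≠ 0) : (mk3 p q r s h).val = !![p, q; r, s] := rfl

theorem val_eta (g : G3) : g.val = !![g.val 0 0, g.val 0 1; g.val 1 0, g.val 1 1] :=
  Matrix.eta_fin_two g.val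

theorem det_ne (g : G3) : g.val.det ≠ 0 :=
  ((Matrix.isUnit_iff_isUnit_det _).mp g.isUnit).ne_zero

/-- The trace pairing is non-degenerate on `GL₂(𝔽₃)`. -/
theorem eq_one_of_trace {m : G3} (h : ∀ x : G3, (x * m).val.trace = x.val.trace) : m = 1 := by
  have key : ∀ (p q r s : F3) (hx : p * s - q * r ≠ 0),
      p * m.val 0 0 + q * m.val 1 0 + (r * m.val 0 1 + s * m.val 1 1) = p + s := fun p q r s hx => by
    have := h (mk3 p q r s hx)
    rw [Units.val_mul, mk3_val, val_eta m, Matrix.mul_fin_two, Matrix.trace_fin_two_of,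
      Matrix.trace_fin_two_of] at this
    exact this
  have h1 := key 1 0 0 1 (by decide)
  have h2 := key (-1) 0 0 1 (by decide)
  have h3 := key 1 1 0 1 (by decide)
  have h4 := key 1 0 1 1 (by decide)
  have key2 : ∀ p q r s : F3, 1 * p + 0 * r + (0 * q + 1 * s) = 1 + 1 →
      -1 * p + 0 * r + (0 * q + 1 * s) = -1 + 1 → 1 * p + 1 * r + (0 * q + 1 * s) = 1 + 1 →
      1 * p + 0 * r + (1 * q + 1 * s) = 1 + 1 → p = 1 ∧ q = 0 ∧ r = 0 ∧ s = 1 := by decide
  obtain ⟨e1, e2, e3, e4⟩ := key2 _ _ _ _ h1 h2 h3 h4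
  apply Units.ext
  rw [val_eta m, Units.val_one, Matrix.one_fin_two, e1, e2, e3, e4]

/-- Every element is killed by `8`, or it or its negative by `3`. -/
theorem order_cases (g : G3) : g ^ 8 = 1 ∨ g ^ 3 = 1 ∨ (-g) ^ 3 = 1 := by
  have key : ∀ p q r s : F3, p * s - q * r ≠ 0 →
      !![p, q; r, s] ^ 8 = 1 ∨ !![p, q; r, s] ^ 3 = 1 ∨ (-!![p, q; r, s]) ^ 3 = 1 := by
    decide +kernel
  have hd := det_ne g
  rw [Matrix.det_fin_two] at hd
  have := key _ _ _ _ hd
  rw [← val_eta g] at this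
  rcases this with h | h | h
  · exact Or.inl (Units.ext (by rw [Units.val_pow_eq_pow_val, Units.val_one]; exact h))
  · exact Or.inr (Or.inl (Units.ext (by rw [Units.val_pow_eq_pow_val, Units.val_one]; exact h)))
  · exact Or.inr (Or.inr (Units.ext
      (by rw [Units.val_pow_eq_pow_val, Units.val_one, Units.val_neg]; exact h)))

/-- The upper transvection. -/
def upperT (b : F3) : G3 := mk3 1 b 0 1 (by simp)

/-- The lower transvection. -/
def lowerT (a : F3) : G3 := mk3 1 0 a 1 (by simp)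

/-- `diag (-1, 1)`. -/
def flipT : G3 := mk3 (-1) 0 0 1 (by decide)

theorem exists_factor (g : G3) (hg : g.val.det = 1) :
    ∃ a b c d : F3, g = lowerT a * upperT b * (lowerT c * upperT d) := by
  have key : ∀ p q r s : F3, p * s - q * r = 1 → ∃ a b c d : F3,
      1 + b * c = p ∧ d + b * (c * d + 1) = q ∧ a + (a * b + 1) * c = r ∧
        a * d + (a * b + 1) * (c * d + 1) = s := by decide +kernel
  rw [Matrix.det_fin_two] at hg
  obtain ⟨a, b, c, d, h1, h2, h3, h4⟩ := key _ _ _ _ hg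
  refine ⟨a, b, c, d, Units.ext ?_⟩
  rw [val_eta g, ← h1, ← h2, ← h3, ← h4]
  simp [lowerT, upperT, mk3_val]

/-- A character of `GL₂(𝔽₃)` in a field is trivial on determinant one and `±1` on the flip. -/
theorem char_cases {k : Type} [Field k] [CharP k 3] (χ : G3 →* kˣ) :
    (∀ g, (χ g : k) = 1) ∨ ∀ g, (χ g : k) = ZMod.castHom (dvd_refl 3) k g.val.det := by
  have hu : ∀ b, flipT * upperT b * flipT⁻¹ = (upperT b)⁻¹ ∧
      flipT * lowerT b * flipT⁻¹ = (lowerT b)⁻¹ ∧ upperT b ^ 3 = 1 ∧ lowerT b ^ 3 = 1 := by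
    intro b
    refine ⟨?_, ?_, ?_, ?_⟩
    · rw [mul_inv_eq_iff_eq_mul, eq_inv_mul_iff_mul_eq]
      apply Units.ext
      simp only [Units.val_mul, flipT, upperT, mk3_val]
      revert b; decide
    · rw [mul_inv_eq_iff_eq_mul, eq_inv_mul_iff_mul_eq]
      apply Units.ext
      simp only [Units.val_mul, flipT, lowerT, mk3_val]
      revert b; decide
    · apply Units.ext
      simp only [Units.val_pow_eq_pow_val, upperT, mk3_val, Units.val_one]
      revert b; decide
    · apply Units.ext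
      simp only [Units.val_pow_eq_pow_val, lowerT, mk3_val, Units.val_one]
      revert b; decide
  have hker : ∀ x : G3, flipT * x * flipT⁻¹ = x⁻¹ → x ^ 3 = 1 → χ x = 1 := fun x h2 h3 => by
    have h2' := congrArg χ h2
    rw [map_mul, map_mul, map_inv, map_inv, mul_right_comm, mul_inv_cancel, one_mul,
      eq_inv_iff_mul_eq_one] at h2'
    have h3' := congrArg χ h3
    rwa [map_pow, map_one, pow_succ, pow_two, h2', one_mul] at h3'
  have hsl : ∀ g : G3, g.val.det = 1 → χ g = 1 := fun g hg => by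
    obtain ⟨a, b, c, d, rfl⟩ := exists_factor g hg
    simp [hker _ (hu a).2.1 (hu a).2.2.2, hker _ (hu b).1 (hu b).2.2.1,
      hker _ (hu c).2.1 (hu c).2.2.2, hker _ (hu d).1 (hu d).2.2.1]
  have hflip : (χ flipT : k) = 1 ∨ (χ flipT : k) = -1 := by
    have h : flipT * flipT = 1 := Units.ext (by rw [Units.val_mul, flipT, mk3_val]; decide)
    have := congrArg (fun u : kˣ => (u : k)) (congrArg χ h)
    simp only [map_mul, map_one, Units.val_mul, Units.val_one] at this
    exact mul_self_eq_one_iff.mp this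
  have hval : ∀ g : G3, (g.val.det = 1 ∧ χ g = 1) ∨ (g.val.det = -1 ∧ χ g = χ flipT) := fun g => by
    have h := det_ne g
    have hcase : ∀ x : F3, x ≠ 0 → x = 1 ∨ x = -1 := by decide
    rcases hcase _ h with hd | hd
    · exact Or.inl ⟨hd, hsl g hd⟩
    · refine Or.inr ⟨hd, ?_⟩
      have hf : flipT.val.det = -1 := by rw [flipT, mk3_val]; decide
      have := hsl (flipT * g) (by rw [Units.val_mul, Matrix.det_mul, hf, hd]; decide)
      rw [map_mul] at this
      have hsq : χ flipT * χ flipT = 1 := by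
        rw [← map_mul, show flipT * flipT = 1 from Units.ext
          (by rw [Units.val_mul, flipT, mk3_val]; decide), map_one]
      exact mul_left_cancel (this.trans hsq.symm)
  rcases hflip with hf | hf
  · refine Or.inl fun g => ?_
    rcases hval g with ⟨-, h⟩ | ⟨-, h⟩ <;> simp [h, hf]
  · refine Or.inr fun g => ?_
    rcases hval g with ⟨hd, h⟩ | ⟨hd, h⟩ <;> simp [h, hf, hd]

/-- Two squares which do not commute. -/
theorem exists_squares : ∃ x y : G3, x ^ 2 * y ^ 2 ≠ y ^ 2 * x ^ 2 := by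
  refine ⟨mk3 1 1 1 0 (by decide), mk3 0 1 1 1 (by decide), fun h => ?_⟩
  have := congrArg Units.val h
  simp only [Units.val_mul, Units.val_pow_eq_pow_val, mk3_val] at this
  revert this
  decide

end FA.LTReduce

end
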