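import Fermat.Agent.LTReduce.Basic
import Fermat.Agent.Weight1.Density

/-!
# A congruence of traces at almost all primes gives one everywhere

For `R : Γ_ℚ → GL₂(ℂ)` of finite level and `ρ : Γ_ℚ → GL₂(𝔽₃)` surjective, congruence of the
traces at the Frobenius elements gives congruence of traces and determinants at every element.
The only input is Frobenius density for sets stable under conjugation and inversion.
-/

set_option autoImplicit false

noncomputable section

namespace FA.LTReduce



local notation "Qb" => AlgebraicClosure ℚ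
local notation "GQ" => AlgebraicClosure ℚ ≃ₐ[ℚ] AlgebraicClosure ℚ
local notation "ZB" => integralClosure ℤ ℂ
local notation "G3" => GL (Fin 2) (ZMod 3)

variable {k : Type} [Field k] [CharP k 3] (φ : ZB →+* k)

local notation "c3" => ZMod.castHom (dvd_refl 3) k

/-- The congruence of traces at an element. -/
def Agree (R : GQ →* GL (Fin 2) ℂ) (ρ : GQ →* G3) (σ : GQ) : Prop :=
  Cong φ (R σ).val.trace (c3 (ρ σ).val.trace)

variable {φ} {R : GQ →* GL (Fin 2) ℂ} {ρ : GQ →* G3}

/-- Each element or its inverse agrees. -/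
theorem agree_or_inv (hR : GaloisFactorsThroughFiniteLevel R) (hρ : IsOpen (ρ.ker : Set GQ))
    (S : Finset ℕ)
    (h : ∀ p : ℕ, p.Prime → p ∉ S → ∀ A : ValuationSubring Qb, A.LiesOverPrime p →
      ∀ σ : GQ, A.IsFrobeniusAt σ p → Agree φ R ρ σ) (σ : GQ) :
    Agree φ R ρ σ ∨ Agree φ R ρ σ⁻¹ := by
  classical
  have hRo := FA.Weight1.isOpen_ker_of_finite_level hR
  set P := R.prod ρ with hP
  have hker : IsOpen (P.rangeRestrict.ker : Set GQ) := by
    rw [MonoidHom.ker_rangeRestrict, hP, MonoidHom.ker_prod, Subgroup.coe_inf]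
    exact hRo.inter hρ
  have : Finite R.range := FA.Weight1.finite_range_of_finite_level hR
  have : Finite P.range :=
    Finite.of_injective (fun g : P.range => ((⟨g.1.1, by
      obtain ⟨τ, hτ⟩ := g.2
      exact ⟨τ, by rw [← hτ]; rfl⟩⟩ : R.range), g.1.2))
      (fun g g' hgg => by
        simp only [Prod.mk.injEq, Subtype.mk.injEq] at hgg
        exact Subtype.ext (Prod.ext hgg.1 hgg.2))
  have : Fintype P.range := Fintype.ofFinite _
  let x := P.rangeRestrict σ
  let X : Set P.range := {g | ∃ y, y * x * y⁻¹ = g ∨ y * x⁻¹ * y⁻¹ = g}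
  have hX1 : ∀ g ∈ X, ∀ y, y * g * y⁻¹ ∈ X := by
    rintro g ⟨z, rfl | rfl⟩ y
    · exact ⟨y * z, Or.inl (by group)⟩
    · exact ⟨y * z, Or.inr (by group)⟩
  have hX2 : ∀ g ∈ X, g⁻¹ ∈ X := by
    rintro g ⟨z, rfl | rfl⟩
    · exact ⟨z, Or.inr (by group)⟩
    · exact ⟨z, Or.inl (by group)⟩
  have hpos : (0 : ℝ) < (Nat.card X : ℝ) / Fintype.card P.range := by
    refine div_pos (Nat.cast_pos.2 ?_) (Nat.cast_pos.2 Fintype.card_pos)
    have : Nonempty X := ⟨⟨x, 1, Or.inl (by group)⟩⟩
    exact Nat.card_pos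
  set c := (Nat.card X : ℝ) / Fintype.card P.range with hc
  obtain ⟨C, hC⟩ := FA.Weight1.symDensity P.range P.rangeRestrict
    P.rangeRestrict_surjective hker X hX1 hX2 (c / 2) (half_pos hpos) S
  set L : ℝ := max ((C + 1) / (c / 2)) 0
  have hs : (1 + Real.exp (-L)) ∈ Set.Ioc (1 : ℝ) 2 := by
    have : Real.exp (-L) ≤ 1 := Real.exp_le_one_iff.2 (by simp [L])
    exact ⟨by linarith [Real.exp_pos (-L)], by linarith⟩
  obtain ⟨T, hT, hsum⟩ := hC _ hs
  rw [← hc, sub_half, add_sub_cancel_left, one_div, ← Real.exp_neg, neg_neg, Real.log_exp] at hsum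
  have hL : C + 1 ≤ c / 2 * L := by
    rw [mul_comm, ← div_le_iff₀ (half_pos hpos)]
    exact le_max_left _ _
  obtain ⟨p, hp⟩ : T.Nonempty := by
    by_contra he
    rw [Finset.not_nonempty_iff_eq_empty.1 he, Finset.sum_empty] at hsum
    linarith
  obtain ⟨hpp, hpS, hFrob⟩ := hT p hp
  obtain ⟨A, hA⟩ := FA.Deform.exists_liesOverPrime hpp
  obtain ⟨τ, hτ⟩ := FA.Deform.exists_isFrobeniusAt hpp hA
  obtain ⟨y, hy⟩ := hFrob A hA τ hτ
  obtain ⟨υ, rfl⟩ := P.rangeRestrict_surjective y
  have key : ∀ θ : GQ, P.rangeRestrict υ * P.rangeRestrict θ * (P.rangeRestrict υ)⁻¹ =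
      P.rangeRestrict τ → Agree φ R ρ θ := fun θ e => by
    rw [← map_inv, ← map_mul, ← map_mul] at e
    have e' := congrArg (Subtype.val) e
    have e1 : R (υ * θ * υ⁻¹) = R τ := congrArg Prod.fst e'
    have e2 : ρ (υ * θ * υ⁻¹) = ρ τ := congrArg Prod.snd e'
    have := h p hpp hpS A hA τ hτ
    unfold Agree at this ⊢
    rwa [← e1, ← e2, map_mul, map_mul, map_mul, map_mul, map_inv, map_inv,
      Units.val_mul, Units.val_mul, Units.val_mul, Units.val_mul,
      Matrix.trace_units_conj, Matrix.trace_units_conj] at this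
  rcases hy with hy | hy
  · exact Or.inl (key σ hy)
  · exact Or.inr (key σ⁻¹ (by rwa [map_inv]))

/-- Trace identities in `GL₂`. -/
theorem trace_facts {F : Type} [CommRing F] (g : GL (Fin 2) F) :
    g⁻¹.val.trace * g.val.det = g.val.trace ∧
      (g * g).val.trace = g.val.trace ^ 2 - 2 * g.val.det := by
  constructor
  · have h1 : g⁻¹.val * g.val = 1 := by rw [← Units.val_mul, inv_mul_cancel, Units.val_one]
    have h00 := congrFun (congrFun h1 0) 0
    have h01 := congrFun (congrFun h1 0) 1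
    have h10 := congrFun (congrFun h1 1) 0
    have h11 := congrFun (congrFun h1 1) 1
    simp only [Matrix.mul_apply, Fin.sum_univ_two, Matrix.one_apply_eq,
      Matrix.one_apply_ne (show (0 : Fin 2) ≠ 1 by decide),
      Matrix.one_apply_ne (show (1 : Fin 2) ≠ 0 by decide)] at h00 h01 h10 h11
    simp only [Matrix.trace_fin_two, Matrix.det_fin_two]
    linear_combination g.val 1 1 * h00 - g.val 1 0 * h01 + g.val 0 0 * h11 - g.val 0 1 * h10
  · simp only [Units.val_mul, Matrix.trace_fin_two, Matrix.det_fin_two, Matrix.mul_apply,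
      Fin.sum_univ_two]
    ring

/-- **Congruence everywhere.** -/
theorem cong_trace_det (hR : GaloisFactorsThroughFiniteLevel R) (hρ : IsOpen (ρ.ker : Set GQ))
    (hsurj : Function.Surjective ρ) (S : Finset ℕ)
    (h : ∀ p : ℕ, p.Prime → p ∉ S → ∀ A : ValuationSubring Qb, A.LiesOverPrime p →
      ∀ σ : GQ, A.IsFrobeniusAt σ p → Agree φ R ρ σ) (σ : GQ) :
    Cong φ (R σ).val.trace (c3 (ρ σ).val.trace) ∧ Cong φ (R σ).val.det (c3 (ρ σ).val.det) := by
  have := FA.Weight1.finite_range_of_finite_level hR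
  have hex : ∀ σ, (∃ c, Cong φ (R σ).val.trace c) ∧ ∃ c, Cong φ (R σ).val.det c := fun σ => by
    obtain ⟨n, hn, e⟩ := isOfFinOrder_iff_pow_eq_one.mp
      (isOfFinOrder_of_finite (⟨R σ, σ, rfl⟩ : R.range))
    obtain ⟨x, y, hx, hy, ht, hd⟩ := FA.Weight1.exists_roots_of_pow (g := R σ) (n := n)
      (congrArg Subtype.val e)
    obtain ⟨cx, hcx⟩ := exists_cong_of_pow (φ := φ) hn hx
    obtain ⟨cy, hcy⟩ := exists_cong_of_pow (φ := φ) hn hy
    exact ⟨⟨_, ht ▸ hcx.add hcy⟩, _, hd ▸ hcx.mul hcy⟩
  choose T hT using fun σ => (hex σ).1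
  choose D hD using fun σ => (hex σ).2
  have hD1 : D 1 = 1 := (hD 1).unique (by simpa using cong_one (φ := φ))
  have hDmul : ∀ a b, D (a * b) = D a * D b := fun a b => (hD (a * b)).unique (by
    simpa [map_mul] using (hD a).mul (hD b))
  have hDne : ∀ a, D a ≠ 0 := fun a h0 => by
    have := hDmul a a⁻¹
    rw [mul_inv_cancel, hD1, h0, zero_mul] at this
    exact one_ne_zero this
  have hTinv : ∀ a, T a⁻¹ * D a = T a := fun a =>
    ((hT a⁻¹).mul (hD a)).unique (by rw [map_inv, (trace_facts (R a)).1]; exact hT a)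
  have hTsq : ∀ a, T (a * a) = T a ^ 2 - 2 * D a := fun a => (hT (a * a)).unique (by
    rw [map_mul, (trace_facts (R a)).2, pow_two, pow_two]
    exact ((hT a).mul (hT a)).sub ((cong_natCast 2).mul (hD a)))
  have hW : ∀ a, T a = c3 (ρ a).val.trace ∨ T a⁻¹ = c3 (ρ a)⁻¹.val.trace := fun a => by
    rcases agree_or_inv hR hρ S h a with h' | h'
    · exact Or.inl ((hT a).unique h')
    · exact Or.inr ((hT a⁻¹).unique (by rw [← map_inv ρ]; exact h'))
  have h3 : (3 : k) = 0 := CharP.cast_eq_zero k 3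
  -- on the kernel of `ρ`
  have hkerD : ∀ a, ρ a = 1 → D a = 1 := by
    intro a ha
    have two : c3 (1 : G3).val.trace = 2 := by
      rw [Units.val_one, Matrix.trace_one, Fintype.card_fin, Nat.cast_two, map_ofNat]
    have hh : ∀ b, ρ b = 1 → T b = 2 ∨ T b = 2 * D b := fun b hb => by
      rcases hW b with e | e
      · exact Or.inl (e.trans (by rw [hb, two]))
      · rw [hb, inv_one, two] at e
        exact Or.inr (by rw [← hTinv b, e])
    have h2 := hh (a * a) (by rw [map_mul, ha, one_mul])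
    rw [hTsq, hDmul] at h2
    have h1 : (D a - 1) * (D a - 1) = 0 ∨ D a * (D a - 1) = 0 ∨ D a - 1 = 0 := by
      rcases hh a ha with e | e <;> rw [e] at h2 <;> rcases h2 with e2 | e2
      · exact Or.inr (Or.inr (by linear_combination e2 - (1 - D a) * h3))
      · exact Or.inl (by linear_combination e2 + (D a * D a - 1) * h3)
      · exact Or.inl (by linear_combination e2 + (1 - D a * D a) * h3)
      · exact Or.inr (Or.inl (by linear_combination -e2 + (D a * D a - D a) * h3))
    rcases h1 with e | e | e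
    · exact sub_eq_zero.mp (mul_self_eq_zero.mp e)
    · exact sub_eq_zero.mp ((mul_eq_zero.mp e).resolve_left (hDne a))
    · exact sub_eq_zero.mp e
  obtain ⟨sec, hsec⟩ := hsurj.hasRightInverse
  have hDfac : ∀ a b, ρ a = ρ b → D a = D b := fun a b e => by
    have := hDmul b (b⁻¹ * a)
    rwa [mul_inv_cancel_left, hkerD (b⁻¹ * a) (by rw [map_mul, map_inv, e, inv_mul_cancel]),
      mul_one] at this
  let χ : G3 →* kˣ :=
    { toFun := fun g => Units.mk0 (D (sec g)) (hDne _)
      map_one' := Units.ext (by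
        rw [Units.val_mk0, Units.val_one, hDfac (sec 1) 1 (by rw [hsec, map_one]), hD1])
      map_mul' := fun g g' => Units.ext (by
        rw [Units.val_mk0, Units.val_mul, Units.val_mk0, Units.val_mk0, ← hDmul]
        exact hDfac _ _ (by rw [map_mul, hsec, hsec, hsec])) }
  have hDχ : ∀ a, D a = (χ (ρ a) : k) := fun a => hDfac _ _ (hsec (ρ a)).symm
  have hdet : ∀ a, D a = c3 (ρ a).val.det := by
    rcases char_cases χ with hc | hc
    · exfalso
      -- an element of order `8`
      obtain ⟨a, ha⟩ := hsurj (mk3 1 1 1 0 (by decide))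
      have hd : D a = 1 := by rw [hDχ, hc]
      have hTT : T a⁻¹ = T a := by simpa [hd] using hTinv a
      have h1 : T a ^ 2 = 1 := by
        rcases hW a with e | e
        · rw [e, ha, mk3_val, Matrix.trace_fin_two_of, ← map_pow]
          simp
        · rw [← hTT, e, ha, ← map_pow]
          rw [show (mk3 1 1 1 0 (by decide) : G3)⁻¹ = mk3 0 1 1 (-1) (by decide) from
            inv_eq_of_mul_eq_one_left (Units.ext (by
              rw [Units.val_mul, mk3_val, mk3_val, Units.val_one]; decide))]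
          rw [mk3_val, Matrix.trace_fin_two_of]
          simp
      have hdd : D (a * a) = 1 := by rw [hDmul, hd, one_mul]
      have hTaa : T (a * a) = -1 := by rw [hTsq, h1, hd]; ring
      have hρaa : ρ (a * a) = mk3 2 1 1 1 (by decide) := by
        rw [map_mul, ha]
        exact Units.ext (by rw [Units.val_mul, mk3_val, mk3_val]; decide)
      rcases hW (a * a) with e | e
      · rw [hTaa, hρaa, mk3_val, Matrix.trace_fin_two_of, show (2 : ZMod 3) + 1 = 0 by decide,
          map_zero] at e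
        exact one_ne_zero (neg_eq_zero.mp e)
      · have hT2 := hTinv (a * a)
        rw [hdd, mul_one] at hT2
        rw [hT2, hTaa, hρaa,
          show (mk3 2 1 1 1 (by decide) : G3)⁻¹ = mk3 1 2 2 2 (by decide) from
            inv_eq_of_mul_eq_one_left (Units.ext (by
              rw [Units.val_mul, mk3_val, mk3_val, Units.val_one]; decide)),
          mk3_val, Matrix.trace_fin_two_of, show (1 : ZMod 3) + 2 = 0 by decide, map_zero] at e
        exact one_ne_zero (neg_eq_zero.mp e)
    · exact fun a => by rw [hDχ, hc]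
  refine ⟨?_, hdet σ ▸ hD σ⟩
  rcases hW σ with e | e
  · exact e ▸ hT σ
  · have h2 := congrArg c3 (trace_facts (ρ σ)).1
    rw [map_mul, ← hdet, ← e, hTinv] at h2
    exact h2 ▸ hT σ

end FA.LTReduce

end
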