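import Fermat.Agent.LTReduce.Basic
import Fermat.Agent.Density.Traces
import Mathlib.GroupTheory.PGroup
import Mathlib.GroupTheory.Nilpotent

/-!
# Representations congruent to a surjective `ρ : Γ_ℚ → GL₂(𝔽₃)`

A finite image lift `R` of `ρ` is a twist, by a character of `3`-power order, of any
lift `L : GL₂(𝔽₃) → GL₂(ℂ)`.
-/

set_option autoImplicit false

noncomputable section

namespace FA.LTReduce

open scoped commutatorElement

local notation "GQ" => AlgebraicClosure ℚ ≃ₐ[ℚ] AlgebraicClosure ℚ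
local notation "ZB" => integralClosure ℤ ℂ
local notation "G3" => GL (Fin 2) (ZMod 3)
local notation "M2C" => Matrix (Fin 2) (Fin 2) ℂ

/-- The commutant of a non-scalar matrix. -/
theorem exists_eq_of_commute {M X : M2C} (hM : ∀ c : ℂ, M ≠ c • 1) (h : X * M = M * X) :
    ∃ a b : ℂ, X = a • M + b • 1 := by
  have h00 := congrFun (congrFun h 0) 0
  have h01 := congrFun (congrFun h 0) 1
  have h10 := congrFun (congrFun h 1) 0
  simp only [Matrix.mul_apply, Fin.sum_univ_two] at h00 h01 h10
  by_cases hq : M 0 1 = 0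
  · by_cases hr : M 1 0 = 0
    · have hd : M 0 0 - M 1 1 ≠ 0 := fun e => hM (M 0 0) (by
        ext i j
        fin_cases i <;> fin_cases j <;> simp [hq, hr, ← sub_eq_zero.mp e])
      refine ⟨(X 0 0 - X 1 1) / (M 0 0 - M 1 1),
        X 0 0 - (X 0 0 - X 1 1) / (M 0 0 - M 1 1) * M 0 0, ?_⟩
      rw [hq] at h01
      rw [hr] at h10
      have e01 : X 0 1 = 0 := (mul_eq_zero.mp (show X 0 1 * (M 0 0 - M 1 1) = 0 by
        linear_combination -h01)).resolve_right hd
      have e10 : X 1 0 = 0 := (mul_eq_zero.mp (show X 1 0 * (M 0 0 - M 1 1) = 0 by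
        linear_combination h10)).resolve_right hd
      ext i j
      fin_cases i <;> fin_cases j <;> simp [hq, hr, e01, e10]
      field_simp
      ring
    · refine ⟨X 1 0 / M 1 0, X 0 0 - X 1 0 / M 1 0 * M 0 0, ?_⟩
      ext i j
      fin_cases i <;> fin_cases j <;> simp <;> field_simp
      · linear_combination h00
      · linear_combination h10
  · refine ⟨X 0 1 / M 0 1, X 0 0 - X 0 1 / M 0 1 * M 0 0, ?_⟩
    ext i j
    fin_cases i <;> fin_cases j <;> simp <;> field_simp
    · linear_combination -h00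
    · linear_combination -h01

theorem disc_ne_zero {z : GL (Fin 2) ℂ} {n : ℕ} (hn : 0 < n) (hz : z ^ n = 1)
    (hns : ∀ c : ℂ, z.val ≠ c • 1) : z.val.trace ^ 2 - 4 * z.val.det ≠ 0 := by
  intro h0
  obtain ⟨x, y, hx, -, ht, hd⟩ := FA.Weight1.exists_roots_of_pow hz
  have hxy : x = y := by
    rw [ht, hd] at h0
    exact sub_eq_zero.mp (mul_self_eq_zero.mp (show (x - y) * (x - y) = 0 by linear_combination h0))
  subst hxy
  have hx0 : x ≠ 0 := fun e => by simp [e, zero_pow hn.ne'] at hx
  set u := Units.mk0 x hx0 with hu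
  have h1 : scal ℂ u⁻¹ * z = 1 := by
    refine FA.Weight1.eq_one_of_trace_det hn ?_ ?_ ?_
    · rw [Commute.mul_pow (scal_mul_comm _ _), hz, mul_one, ← map_pow, inv_pow,
        show u ^ n = 1 from Units.ext (by rw [Units.val_pow_eq_pow_val, hu, Units.val_mk0, hx,
          Units.val_one]), inv_one, map_one]
    · rw [trace_scal_mul, ht, Units.val_inv_eq_inv_val, hu, Units.val_mk0]
      field_simp
      ring
    · rw [det_scal_mul, hd, Units.val_inv_eq_inv_val, hu, Units.val_mk0]
      field_simp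
  refine hns x ?_
  have h2 : z = scal ℂ u := by
    rw [map_inv, inv_mul_eq_one] at h1
    exact h1.symm
  rw [h2, scal_val, hu, Units.val_mk0]

variable {k : Type} [Field k] [CharP k 3] {φ : ZB →+* k}

local notation "c3" => ZMod.castHom (dvd_refl 3) k

theorem two_ne_zero' : (2 : k) ≠ 0 := fun h => by
  have h3 : (3 : k) = 0 := CharP.cast_eq_zero k 3
  exact one_ne_zero (show (1 : k) = 0 by linear_combination h3 - h)

theorem c3_trace_one : c3 (1 : G3).val.trace = 2 := by
  rw [Units.val_one, Matrix.trace_one, Fintype.card_fin, Nat.cast_two, map_ofNat]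

theorem c3_det_one : c3 (1 : G3).val.det = 1 := by
  rw [Units.val_one, Matrix.det_one, map_one]

/-- A finite order element congruent to `1` is killed by a power of `3`. -/
theorem exists_pow_three {x : GL (Fin 2) ℂ} {n : ℕ} (hn : 0 < n) (hx : x ^ n = 1)
    (ht : Cong φ x.val.trace 2) (hd : Cong φ x.val.det 1) : ∃ r : ℕ, x ^ (3 ^ r) = 1 := by
  obtain ⟨a, b, ha, hb, et, ed⟩ := FA.Weight1.exists_roots_of_pow hx
  obtain ⟨ca, hca⟩ := exists_cong_of_pow (φ := φ) hn ha
  obtain ⟨cb, hcb⟩ := exists_cong_of_pow (φ := φ) hn hb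
  have h2 : ca + cb = 2 := (hca.add hcb).unique (et ▸ ht)
  have h1 : ca * cb = 1 := (hca.mul hcb).unique (ed ▸ hd)
  have hca1 : ca = 1 := sub_eq_zero.mp (mul_self_eq_zero.mp
    (show (ca - 1) * (ca - 1) = 0 by linear_combination ca * h2 - h1))
  have hcb1 : cb = 1 := by linear_combination h2 - hca1
  obtain ⟨r, -, hr⟩ := exists_three_pow hn ha (hca1 ▸ hca)
  obtain ⟨s, -, hs⟩ := exists_three_pow hn hb (hcb1 ▸ hcb)
  have hr' : a ^ 3 ^ (r + s) = 1 := by rw [pow_add, pow_mul, hr, one_pow]
  have hs' : b ^ 3 ^ (r + s) = 1 := by rw [pow_add, mul_comm, pow_mul, hs, one_pow]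
  refine ⟨r + s, FA.Weight1.eq_one_of_trace_det hn
    (by rw [← pow_mul, mul_comm, pow_mul, hx, one_pow]) ?_ ?_⟩
  all_goals
    have hA : x.val.trace = (Matrix.diagonal ![a, b]).trace := by
      rw [et, Matrix.trace_diagonal, Fin.sum_univ_two]; rfl
    have hB : x.val.det = (Matrix.diagonal ![a, b]).det := by
      rw [ed, Matrix.det_diagonal, Fin.prod_univ_two]; rfl
    have := FA.Density.trace_det_pow_eq hA hB (3 ^ (r + s))
    rw [Matrix.diagonal_pow, ← Units.val_pow_eq_pow_val, Matrix.trace_diagonal,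
      Matrix.det_diagonal, Fin.sum_univ_two, Fin.prod_univ_two] at this
  · rw [this.1]; simp [hr', hs']; norm_num
  · rw [this.2]; simp [hr', hs']

variable {R : GQ →* GL (Fin 2) ℂ} {ρ : GQ →* G3}

/-- `Rep` congruent to `ρ`. -/
def CongRep (φ : ZB →+* k) (R : GQ →* GL (Fin 2) ℂ) (ρ : GQ →* G3) : Prop :=
  ∀ σ, Cong φ (R σ).val.trace (c3 (ρ σ).val.trace) ∧ Cong φ (R σ).val.det (c3 (ρ σ).val.det)

theorem ker_le (h : CongRep φ R ρ) (hsurj : Function.Surjective ρ) {σ : GQ} (hσ : R σ = 1) :
    ρ σ = 1 := by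
  refine eq_one_of_trace fun x => ?_
  obtain ⟨τ, rfl⟩ := hsurj x
  have h1 := (h (τ * σ)).1
  rw [map_mul, map_mul, hσ, mul_one] at h1
  exact (ZMod.castHom (dvd_refl 3) k).injective (h1.unique (h τ).1)

/-- The image of the kernel of `ρ` is scalar. -/
theorem scalar_on_ker (h : CongRep φ R ρ) (hsurj : Function.Surjective ρ) [Finite R.range]
    {σ : GQ} (hσ : ρ σ = 1) : ∃ c : ℂ, (R σ).val = c • 1 := by
  set H := ρ.ker.map R
  have : Finite H := Finite.of_injective (fun x : H => (⟨x.1, by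
    obtain ⟨τ, -, hτ⟩ := x.2
    exact ⟨τ, hτ⟩⟩ : R.range)) fun x y e => Subtype.ext (congrArg (fun z : R.range => z.1) e)
  have hpH : IsPGroup 3 H := fun x => by
    obtain ⟨τ, hτ, e⟩ := x.2
    obtain ⟨n, hn, en⟩ := isOfFinOrder_iff_pow_eq_one.mp (isOfFinOrder_of_finite x)
    have ht := (h τ).1
    have hd := (h τ).2
    rw [MonoidHom.mem_ker.mp hτ, e] at ht hd
    rw [c3_trace_one] at ht
    rw [c3_det_one] at hd
    obtain ⟨r, hr⟩ := exists_pow_three hn (congrArg Subtype.val en) ht hd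
    exact ⟨r, Subtype.ext hr⟩
  by_cases hZ : ∀ z ∈ Subgroup.center H, ∃ c : ℂ, (z : GL (Fin 2) ℂ).val = c • 1
  · refine hZ ⟨R σ, σ, hσ, rfl⟩ ?_
    by_contra hnot
    have hQ : IsPGroup 3 (H ⧸ Subgroup.center H) := hpH.to_quotient _
    have : Nontrivial (H ⧸ Subgroup.center H) := ⟨⟨QuotientGroup.mk ⟨R σ, σ, hσ, rfl⟩, 1,
      fun e => hnot ((QuotientGroup.eq_one_iff _).mp e)⟩⟩
    have : Fact (Nat.Prime 3) := ⟨Nat.prime_three⟩
    have := hQ.center_nontrivial
    obtain ⟨⟨u, hu⟩, hu1⟩ := exists_ne (1 : Subgroup.center (H ⧸ Subgroup.center H))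
    obtain ⟨y, rfl⟩ := QuotientGroup.mk_surjective u
    refine hu1 (Subtype.ext ((QuotientGroup.eq_one_iff y).mpr (Subgroup.mem_center_iff.mpr fun x => ?_)))
    have hc : ⁅x, y⁆ ∈ Subgroup.center H := by
      rw [← QuotientGroup.eq_one_iff, ← QuotientGroup.mk'_apply (Subgroup.center H),
        map_commutatorElement, commutatorElement_eq_one_iff_commute]
      exact Subgroup.mem_center_iff.mp hu _
    obtain ⟨c, hc1⟩ := hZ _ hc
    obtain ⟨r, hr⟩ := hpH ⁅x, y⁆
    have hdet : Matrix.GeneralLinearGroup.det ((⁅x, y⁆ : H) : GL (Fin 2) ℂ) = 1 := by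
      have : ((⁅x, y⁆ : H) : GL (Fin 2) ℂ) = ⁅(x : GL (Fin 2) ℂ), (y : GL (Fin 2) ℂ)⁆ :=
        map_commutatorElement H.subtype x y
      rw [this, map_commutatorElement, commutatorElement_eq_one_iff_commute]
      exact Commute.all _ _
    have hc2 : c ^ 2 = 1 := by
      have := congrArg Units.val hdet
      rwa [Matrix.GeneralLinearGroup.val_det_apply, hc1, Matrix.det_smul, Fintype.card_fin,
        Matrix.det_one, mul_one, Units.val_one] at this
    have hc3 : c ^ 3 ^ r = 1 := by
      have := congrArg (fun z : H => (z : GL (Fin 2) ℂ).val 0 0) hr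
      simpa [Units.val_pow_eq_pow_val, hc1, smul_pow] using this
    have hcc : c = 1 := by
      have hcop : Nat.gcd 2 (3 ^ r) = 1 := Nat.Coprime.pow_right r (by norm_num)
      have := pow_gcd_eq_one.mpr ⟨hc2, hc3⟩
      rwa [hcop, pow_one] at this
    have : ⁅x, y⁆ = 1 := Subtype.ext (Units.ext (by rw [hc1, hcc, one_smul]; rfl))
    exact commutatorElement_eq_one_iff_mul_comm.mp this
  · exfalso
    push Not at hZ
    obtain ⟨z, hz, hns⟩ := hZ
    obtain ⟨n, hn, en⟩ := isOfFinOrder_iff_pow_eq_one.mp (isOfFinOrder_of_finite z)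
    have hdisc := disc_ne_zero hn (congrArg Subtype.val en) hns
    obtain ⟨τ, hτ, eτ⟩ := z.2
    set M := (z : GL (Fin 2) ℂ).val with hM
    have hconj : ∀ g : GQ, (R g).val * M = M * (R g).val ∨
        (R g).val * M = (M.trace • 1 - M) * (R g).val := fun g => by
      have hmem : g * τ * g⁻¹ ∈ ρ.ker := (ρ.normal_ker).conj_mem τ hτ g
      set W := (R (g * τ * g⁻¹)).val with hW
      have hc : W * M = M * W := by
        have := Subgroup.mem_center_iff.mp hz ⟨R (g * τ * g⁻¹), g * τ * g⁻¹, hmem, rfl⟩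
        exact congrArg (fun x : H => (x : GL (Fin 2) ℂ).val) this
      obtain ⟨a, b, hab⟩ := exists_eq_of_commute hns hc
      have hWM : (R g).val * M = W * (R g).val := by
        rw [hM, ← eτ, hW, ← Units.val_mul, ← Units.val_mul, ← map_mul, ← map_mul,
          inv_mul_cancel_right]
      have ht : W.trace = M.trace := by
        rw [hW, map_mul, map_mul, map_inv, Units.val_mul, Units.val_mul,
          Matrix.trace_units_conj, eτ]
      have hd : W.det = M.det := by
        rw [hW, map_mul, map_mul, map_inv, Units.val_mul, Units.val_mul,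
          Matrix.det_units_conj, eτ]
      rw [hab] at ht hd
      simp only [Matrix.trace_fin_two, Matrix.det_fin_two, Matrix.add_apply, Matrix.smul_apply,
        Matrix.one_apply_eq, Matrix.one_apply_ne (show (0 : Fin 2) ≠ 1 by decide),
        Matrix.one_apply_ne (show (1 : Fin 2) ≠ 0 by decide), smul_eq_mul, mul_zero, add_zero,
        mul_one] at ht hd
      rw [Matrix.trace_fin_two, Matrix.det_fin_two] at hdisc
      have ha : a * a = 1 := by
        refine sub_eq_zero.mp ((mul_eq_zero.mp (show (a * a - 1) *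
          ((M 0 0 + M 1 1) ^ 2 - 4 * (M 0 0 * M 1 1 - M 0 1 * M 1 0)) = 0 from ?_)).resolve_right
            hdisc)
        linear_combination (a * (M 0 0 + M 1 1) + 2 * b + (M 0 0 + M 1 1)) * ht - 4 * hd
      rcases mul_self_eq_one_iff.mp ha with e | e
      · left
        rw [hWM, hab, e, show b = 0 by
          rw [e] at ht; linear_combination (1 / 2 : ℂ) * ht, one_smul, zero_smul, add_zero]
      · right
        rw [hWM, hab, e, show b = M.trace by
          rw [Matrix.trace_fin_two]; rw [e] at ht; linear_combination (1 / 2 : ℂ) * ht]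
        congr 1
        simp [sub_eq_neg_add]
    have hsq : ∀ g : GQ, ∃ a b : ℂ, (R (g ^ 2)).val = a • M + b • 1 := fun g => by
      refine exists_eq_of_commute hns ?_
      rw [map_pow, Units.val_pow_eq_pow_val, pow_two, mul_assoc]
      rcases hconj g with e | e
      · rw [e, ← mul_assoc, e, mul_assoc]
      · have e2 : (R g).val * M = M.trace • (R g).val - M * (R g).val := by
          rw [e, sub_mul, smul_mul_assoc, one_mul]
        rw [e2, mul_sub, mul_smul_comm, ← mul_assoc, e2, sub_mul, smul_mul_assoc, sub_sub_cancel,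
          mul_assoc]
    obtain ⟨x, y, hxy⟩ := exists_squares
    obtain ⟨gx, rfl⟩ := hsurj x
    obtain ⟨gy, rfl⟩ := hsurj y
    obtain ⟨a, b, h1⟩ := hsq gx
    obtain ⟨a', b', h2⟩ := hsq gy
    have hcomm : R (gx ^ 2 * gy ^ 2) = R (gy ^ 2 * gx ^ 2) := Units.ext (by
      rw [map_mul, map_mul, Units.val_mul, Units.val_mul, h1, h2]
      simp only [add_mul, mul_add, smul_mul_assoc, mul_smul_comm, one_mul, mul_one, smul_smul,
        smul_add]
      simp only [mul_comm a, mul_comm b]
      abel)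
    have hk : ρ ((gy ^ 2 * gx ^ 2)⁻¹ * (gx ^ 2 * gy ^ 2)) = 1 :=
      ker_le h hsurj (by rw [map_mul, map_inv, hcomm, inv_mul_cancel])
    rw [map_mul, map_inv, inv_mul_eq_one, map_mul, map_mul, map_pow, map_pow] at hk
    exact hxy hk.symm

/-- Two lifts of `g` have the same trace. -/
theorem trace_eq_of_lift {X Y : G3 →* GL (Fin 2) ℂ}
    (hX : ∀ g, Cong φ (X g).val.trace (c3 g.val.trace) ∧ Cong φ (X g).val.det (c3 g.val.det))
    (hY : ∀ g, Cong φ (Y g).val.trace (c3 g.val.trace) ∧ Cong φ (Y g).val.det (c3 g.val.det))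
    (hdet : ∀ g, (Y g).val.det = 1 ∨ (Y g).val.det = -1)
    (hXY : ∀ g, (X g).val.det = (Y g).val.det) (g : G3) :
    (X g).val.trace = (Y g).val.trace := by
  have h8 : ∀ g : G3, g ^ 8 = 1 → (X g).val.trace = (Y g).val.trace := fun g hg => by
    obtain ⟨a, b, ha, hb, t, d⟩ := FA.Weight1.exists_roots_of_pow (g := X g) (n := 8)
      (by rw [← map_pow, hg, map_one])
    obtain ⟨a', b', ha', hb', t', d'⟩ := FA.Weight1.exists_roots_of_pow (g := Y g) (n := 8)
      (by rw [← map_pow, hg, map_one])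
    obtain ⟨ca, hca⟩ := exists_cong_of_pow (φ := φ) (by norm_num) ha
    obtain ⟨cb, hcb⟩ := exists_cong_of_pow (φ := φ) (by norm_num) hb
    obtain ⟨ca', hca'⟩ := exists_cong_of_pow (φ := φ) (by norm_num) ha'
    obtain ⟨cb', hcb'⟩ := exists_cong_of_pow (φ := φ) (by norm_num) hb'
    have e1 : ca + cb = ca' + cb' :=
      ((hca.add hcb).unique (t ▸ (hX g).1)).trans ((hca'.add hcb').unique (t' ▸ (hY g).1)).symm
    have e2 : ca * cb = ca' * cb' :=
      ((hca.mul hcb).unique (d ▸ (hX g).2)).trans ((hca'.mul hcb').unique (d' ▸ (hY g).2)).symm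
    rw [t, t']
    rcases mul_eq_zero.mp (show (ca - ca') * (ca - cb') = 0 by
      linear_combination ca * e1 - e2) with e | e
    · rw [eq_of_cong_eight ha ha' hca (sub_eq_zero.mp e ▸ hca'),
        eq_of_cong_eight hb hb' hcb ((show cb = cb' by linear_combination e1 - e) ▸ hcb')]
    · rw [eq_of_cong_eight ha hb' hca (sub_eq_zero.mp e ▸ hcb'),
        eq_of_cong_eight hb ha' hcb ((show cb = ca' by linear_combination e1 - e) ▸ hca'), add_comm]
  have hone : ∀ (Z : G3 →* GL (Fin 2) ℂ),
      (∀ g, Cong φ (Z g).val.trace (c3 g.val.trace)) → ∀ g, Z g = 1 → g = 1 := fun Z hZ g hg =>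
    eq_one_of_trace fun x => by
      have h1 := hZ (x * g)
      rw [map_mul, hg, mul_one] at h1
      exact (ZMod.castHom (dvd_refl 3) k).injective (h1.unique (hZ x))
  have h3 : ∀ g : G3, g ^ 3 = 1 → (X g).val.trace = (Y g).val.trace := fun g hg => by
    by_cases hg1 : g = 1
    · rw [hg1, map_one, map_one]
    have hd1 : (Y g).val.det = 1 := (hdet g).resolve_right fun e => by
      have := congrArg (fun z : GL (Fin 2) ℂ => z.val.det) (congrArg Y hg)
      simp only [map_pow, map_one, Units.val_pow_eq_pow_val, Matrix.det_pow, e, Units.val_one,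
        Matrix.det_one] at this
      norm_num at this
    have key : ∀ (Z : G3 →* GL (Fin 2) ℂ), (∀ g, Cong φ (Z g).val.trace (c3 g.val.trace)) →
        (Z g).val.det = 1 → (Z g).val.trace = -1 := fun Z hZ hd => by
      have h3' : Z g ^ 3 = 1 := by rw [← map_pow, hg, map_one]
      obtain ⟨a, b, ha, -, t, d⟩ := FA.Weight1.exists_roots_of_pow h3'
      rw [hd] at d
      have hb : b = a ^ 2 := by linear_combination -a ^ 2 * d - b * ha
      have ha1 : a ≠ 1 := fun e => hg1 (hone Z hZ g (FA.Weight1.eq_one_of_trace_det (by norm_num)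
        h3' (by rw [t, hb, e]; norm_num) hd))
      have := (mul_eq_zero.mp (show (a - 1) * (a ^ 2 + a + 1) = 0 by
        linear_combination ha)).resolve_left (sub_ne_zero.mpr ha1)
      rw [t, hb]
      linear_combination this
    rw [key X (fun g => (hX g).1) ((hXY g).trans hd1), key Y (fun g => (hY g).1) hd1]
  have hneg : ∀ (Z : G3 →* GL (Fin 2) ℂ), (∀ g, Cong φ (Z g).val.trace (c3 g.val.trace) ∧
      Cong φ (Z g).val.det (c3 g.val.det)) → (Z (-1)).val = -1 := fun Z hZ => by
    have h2 : Z (-1) ^ 2 = 1 := by rw [← map_pow, neg_one_sq, map_one]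
    obtain ⟨a, b, ha, hb, t, d⟩ := FA.Weight1.exists_roots_of_pow h2
    have ht := (hZ (-1)).1
    rw [t, Units.val_neg, Matrix.trace_neg, map_neg, c3_trace_one] at ht
    have h3 : (3 : k) = 0 := CharP.cast_eq_zero k 3
    rcases mul_self_eq_one_iff.mp (show a * a = 1 by rw [← pow_two]; exact ha) with rfl | rfl <;>
      rcases mul_self_eq_one_iff.mp (show b * b = 1 by rw [← pow_two]; exact hb) with rfl | rfl
    · exact absurd (ht.unique (by
        simpa [one_add_one_eq_two] using cong_natCast (φ := φ) 2))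
        fun e => two_ne_zero' (k := k) (by linear_combination -2 * e - 2 * h3)
    · exact absurd (ht.unique (by simpa using cong_natCast (φ := φ) 0))
        fun e => two_ne_zero' (k := k) (by linear_combination -e)
    · exact absurd (ht.unique (by simpa using cong_natCast (φ := φ) 0))
        fun e => two_ne_zero' (k := k) (by linear_combination -e)
    · have : scal ℂ (-1) * Z (-1) = 1 := FA.Weight1.eq_one_of_trace_det (n := 2) (by norm_num)
        (by rw [Commute.mul_pow (scal_mul_comm _ _), h2, mul_one, ← map_pow, neg_one_sq, map_one])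
        (by rw [trace_scal_mul, t]; norm_num) (by rw [det_scal_mul, d]; norm_num)
      have := congrArg Units.val this
      rw [Units.val_mul, scal_val, Units.val_one, smul_mul_assoc, one_mul, Units.val_neg,
        Units.val_one, neg_smul, one_smul] at this
      exact neg_eq_iff_eq_neg.mp this
  rcases order_cases g with hg | hg | hg
  · exact h8 g hg
  · exact h3 g hg
  · have := h3 _ hg
    rw [← neg_one_mul g, map_mul, map_mul, Units.val_mul, Units.val_mul, hneg X hX, hneg Y hY,
      neg_one_mul, neg_one_mul, Matrix.trace_neg, Matrix.trace_neg, neg_inj] at this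
    exact this

/-- **`R` is a twist of `L ∘ ρ` by a character of `3`-power order.** -/
theorem exists_exponent (h : CongRep φ R ρ) (hsurj : Function.Surjective ρ) [Finite R.range]
    (L : G3 →* GL (Fin 2) ℂ)
    (hL : ∀ g, Cong φ (L g).val.trace (c3 g.val.trace) ∧ Cong φ (L g).val.det (c3 g.val.det))
    (hdet : ∀ g, (L g).val.det = 1 ∨ (L g).val.det = -1) :
    ∃ i : ℕ, ∀ σ, ((R σ).val.det * (L (ρ σ)).val.det) ^ (2 * i + 1) = 1 ∧
      (L (ρ σ)).val.trace = ((R σ).val.det * (L (ρ σ)).val.det) ^ i * (R σ).val.trace := by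
  let δ : GQ →* ℂˣ :=
    (Matrix.GeneralLinearGroup.det.comp R) * (Matrix.GeneralLinearGroup.det.comp (L.comp ρ))
  have hδ : ∀ σ, (δ σ : ℂ) = (R σ).val.det * (L (ρ σ)).val.det := fun σ => rfl
  set n := Nat.card R.range * Nat.card G3
  have hn : 0 < n := Nat.mul_pos Nat.card_pos Nat.card_pos
  have hδn : ∀ σ, δ σ ^ n = 1 := fun σ => by
    have h1 : R σ ^ Nat.card R.range = 1 :=
      congrArg Subtype.val (pow_card_eq_one' (x := (⟨R σ, σ, rfl⟩ : R.range)))
    have h1' : R σ ^ n = 1 := by rw [pow_mul, h1, one_pow]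
    have h2 : ρ σ ^ n = 1 := by
      obtain ⟨j, hj⟩ : Nat.card G3 ∣ n := dvd_mul_left _ _
      rw [hj, pow_mul, pow_card_eq_one', one_pow]
    show (Matrix.GeneralLinearGroup.det (R σ) * Matrix.GeneralLinearGroup.det (L (ρ σ))) ^ n = 1
    rw [mul_pow, ← map_pow Matrix.GeneralLinearGroup.det, h1',
      ← map_pow Matrix.GeneralLinearGroup.det, ← map_pow L, h2, map_one, map_one, map_one, one_mul]
  set m := 3 ^ n
  have hδm : ∀ σ, δ σ ^ m = 1 := fun σ => by
    have hc : Cong φ (δ σ : ℂ) 1 := by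
      have := (h σ).2.mul (hL (ρ σ)).2
      rw [← hδ, ← map_mul] at this
      have hsq : ∀ x : ZMod 3, x ≠ 0 → x * x = 1 := by decide
      rwa [hsq _ (det_ne _), map_one] at this
    obtain ⟨r, hr, hr1⟩ := exists_three_pow hn
      (by rw [← Units.val_pow_eq_pow_val, hδn, Units.val_one]) hc
    have hrn : r ≤ n :=
      (Nat.lt_pow_self (by norm_num : 1 < 3)).le.trans (Nat.le_of_dvd hn hr)
    obtain ⟨j, hj⟩ := pow_dvd_pow 3 hrn
    exact Units.ext (by rw [Units.val_pow_eq_pow_val, Units.val_one, show m = _ from hj, pow_mul,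
      hr1, one_pow])
  obtain ⟨i, hi⟩ : Odd m := Odd.pow (by decide)
  rw [hi] at hδm
  refine ⟨i, fun σ => ⟨by rw [← hδ, ← Units.val_pow_eq_pow_val, hδm, Units.val_one], ?_⟩⟩
  let η : GQ →* GL (Fin 2) ℂ := (scal ℂ).comp (δ ^ i)
  let R' : GQ →* GL (Fin 2) ℂ :=
    { toFun := fun τ => η τ * R τ
      map_one' := by rw [map_one, map_one, one_mul]
      map_mul' := fun a b => by
        simp only [map_mul]
        rw [mul_assoc (η a), ← mul_assoc (η b), show η b * R a = R a * η b from scal_mul_comm _ _,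
          mul_assoc, mul_assoc] }
  have hR't : ∀ τ, (R' τ).val.trace = (δ τ : ℂ) ^ i * (R τ).val.trace := fun τ => by
    show (scal ℂ ((δ ^ i) τ) * R τ).val.trace = _
    rw [trace_scal_mul]
    simp
  have hR'd : ∀ τ, (R' τ).val.det = (L (ρ τ)).val.det := fun τ => by
    show (scal ℂ ((δ ^ i) τ) * R τ).val.det = _
    rw [det_scal_mul]
    have h1 : (δ τ : ℂ) ^ (2 * i + 1) = 1 := by
      rw [← Units.val_pow_eq_pow_val, hδm, Units.val_one]
    have h2 : (L (ρ τ)).val.det * (L (ρ τ)).val.det = 1 := by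
      rcases hdet (ρ τ) with e | e <;> rw [e] <;> norm_num
    simp only [MonoidHom.pow_apply, Units.val_pow_eq_pow_val]
    rw [← pow_mul, mul_comm i 2]
    calc (δ τ : ℂ) ^ (2 * i) * (R τ).val.det
        = (δ τ : ℂ) ^ (2 * i) * ((R τ).val.det * (L (ρ τ)).val.det) * (L (ρ τ)).val.det := by
          rw [mul_assoc, mul_assoc, h2, mul_one]
      _ = _ := by rw [← hδ, ← pow_succ, h1, one_mul]
  have hcong1 : ∀ τ, Cong φ ((δ τ : ℂ) ^ i) 1 := fun τ => by
    have := ((h τ).2.mul (hL (ρ τ)).2).pow i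
    rw [← hδ, ← map_mul] at this
    have hsq : ∀ x : ZMod 3, x ≠ 0 → x * x = 1 := by decide
    rwa [hsq _ (det_ne _), map_one, one_pow] at this
  have hR'c : ∀ τ, Cong φ (R' τ).val.trace (c3 (ρ τ).val.trace) ∧
      Cong φ (R' τ).val.det (c3 (ρ τ).val.det) := fun τ => by
    refine ⟨?_, hR'd τ ▸ (hL (ρ τ)).2⟩
    rw [hR't]
    simpa using (hcong1 τ).mul (h τ).1
  have hker : ∀ τ, ρ τ = 1 → R' τ = 1 := fun τ hτ => by
    obtain ⟨c, hc⟩ := scalar_on_ker h hsurj hτ
    have hv : (R' τ).val = ((δ τ : ℂ) ^ i * c) • 1 := by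
      show (scal ℂ ((δ ^ i) τ) * R τ).val = _
      rw [Units.val_mul, scal_val, hc, smul_mul_assoc, one_mul, smul_smul]
      simp
    set e := (δ τ : ℂ) ^ i * c with he
    have hd := hR'd τ
    rw [hτ, map_one, hv, Matrix.det_smul, Fintype.card_fin, Units.val_one, Matrix.det_one,
      mul_one, pow_two, mul_self_eq_one_iff] at hd
    refine Units.ext ?_
    rcases hd with e1 | e1
    · rw [hv, e1, one_smul, Units.val_one]
    · exfalso
      have ht := (hR'c τ).1
      rw [hτ, c3_trace_one, hv, e1, Matrix.trace_smul, Matrix.trace_one, Fintype.card_fin] at ht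
      have := ht.unique (by simpa using cong_intCast (φ := φ) (-2 : ℤ))
      have h3 : (3 : k) = 0 := CharP.cast_eq_zero k 3
      exact one_ne_zero (show (1 : k) = 0 by linear_combination this - h3)
  obtain ⟨sec, hsec⟩ := hsurj.hasRightInverse
  have hfac : ∀ a b, ρ a = ρ b → R' a = R' b := fun a b e => by
    have := hker (b⁻¹ * a) (by rw [map_mul, map_inv, e, inv_mul_cancel])
    rw [map_mul, map_inv, inv_mul_eq_one] at this
    exact this.symm
  let X : G3 →* GL (Fin 2) ℂ :=
    { toFun := fun g => R' (sec g)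
      map_one' := by rw [hfac (sec 1) 1 (by rw [hsec, map_one]), map_one]
      map_mul' := fun a b => by
        rw [← map_mul]
        exact hfac _ _ (by rw [map_mul, hsec, hsec, hsec]) }
  have hX : ∀ g, Cong φ (X g).val.trace (c3 g.val.trace) ∧
      Cong φ (X g).val.det (c3 g.val.det) := fun g => by
    have := hR'c (sec g)
    rwa [hsec] at this
  have hXd : ∀ g, (X g).val.det = (L g).val.det := fun g => by
    have := hR'd (sec g)
    rwa [hsec] at this
  have := trace_eq_of_lift hX hL hdet hXd (ρ σ)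
  rw [← this, ← hδ, show X (ρ σ) = R' σ from hfac _ _ (hsec (ρ σ)), hR't]

end FA.LTReduce

end
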