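import Fermat.Agent.Weight1.Depletion
import Fermat.Agent.Weight1.Isotypic
import Fermat.Agent.Weight1.Conjugates

/-!
# Twists of weight one forms by Dirichlet characters
-/

set_option autoImplicit false

noncomputable section

namespace FA.LTReduce

open UpperHalfPlane ModularForm CongruenceSubgroup Filter FA.Period FA.Weight1
open FA.HeckeH1 (GamH MatZ)
open scoped MatrixGroups Manifold Topology

variable {q : ℕ} [NeZero q]

/-- The finite Fourier transform of a character. -/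
def twistWeight (ψ : DirichletCharacter ℂ q) (j : ZMod q) : ℂ :=
  ∑ x : ZMod q, ψ x * ZMod.stdAddChar (-(j * x))

theorem sum_twistWeight (ψ : DirichletCharacter ℂ q) (m : ZMod q) :
    (q : ℂ)⁻¹ * ∑ j : ZMod q, twistWeight ψ j * ZMod.stdAddChar (j * m) = ψ m := by
  simp only [twistWeight, Finset.sum_mul]
  rw [Finset.sum_comm]
  have : ∀ x : ZMod q, ∑ j : ZMod q, ψ x * ZMod.stdAddChar (-(j * x)) * ZMod.stdAddChar (j * m) =
      ψ x * if m - x = 0 then (q : ℂ) else 0 := fun x => by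
    have h := AddChar.sum_mulShift (m - x) (ZMod.isPrimitive_stdAddChar q)
    rw [ZMod.card] at h
    rw [show (if m - x = 0 then (q : ℂ) else 0) =
      ∑ j : ZMod q, ZMod.stdAddChar (j * (m - x)) by rw [h]; split <;> simp, Finset.mul_sum]
    refine Finset.sum_congr rfl fun j _ => ?_
    rw [mul_assoc, ← AddChar.map_add_eq_mul, mul_sub, sub_eq_add_neg, add_comm]
  simp only [this, sub_eq_zero, mul_ite, mul_zero, Finset.sum_ite_eq, Finset.mem_univ, if_true]
  have hq : (q : ℂ) ≠ 0 := NeZero.ne _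
  field_simp

/-- The twist. -/
def twistSum (ψ : DirichletCharacter ℂ q) (f : ℍ → ℂ) : ℍ → ℂ :=
  ∑ j : ZMod q, twistWeight ψ j • (f ∣[(1 : ℤ)] mR (shiftX q (j.val : ℤ)))

variable {N L : ℕ} {ε : DirichletCharacter ℂ N} {f : ℍ → ℂ}

theorem twistSum_mem (hf : IsIso ε L f) (ψ : DirichletCharacter ℂ q) :
    twistSum ψ f ∈ space (GamH (L * q ^ 2) (⊥ : Subgroup (ZMod (L * q ^ 2))ˣ)) 1 := by
  refine ⟨fun γ hγ => ?_, ?_, fun δ => ?_⟩
  · have h0 : γ ∈ Gamma0 (L * q ^ 2) := FA.HeckeH1.GamH_le_Gamma0 hγ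
    obtain ⟨-, -, u, hu, hua⟩ := hγ
    rw [Subgroup.mem_bot] at hu
    subst hu
    have had := det_cast_mul h0
    rw [← hua, Units.val_one, one_mul] at had
    have hN : N ∣ L * q ^ 2 := dvd_mul_of_dvd_left hf.dvd _
    have hq : q ∣ L * q ^ 2 := dvd_mul_of_dvd_right (dvd_pow_self q two_ne_zero) L
    have hdN := congrArg (ZMod.castHom hN (ZMod N)) had
    have hdq := congrArg (ZMod.castHom hq (ZMod q)) had
    rw [map_intCast, map_one] at hdN hdq
    rw [twistSum, SlashAction.sum_slash]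
    refine Finset.sum_congr rfl fun j _ => ?_
    rw [ModularForm.SL_smul_slash, slash_shiftX hf h0 j, hdN, map_one, one_smul, hdq, mul_one,
      mul_one]
  · exact MDifferentiable.sum fun j _ => (mdiff_slash_mR hf.mem _).const_smul _
  · rw [twistSum, SlashAction.sum_slash]
    simp only [ModularForm.SL_smul_slash]
    have h2 : Tendsto (fun z => ∑ j : ZMod q, twistWeight ψ j *
        ((f ∣[(1 : ℤ)] mR (shiftX q (j.val : ℤ))) ∣[(1 : ℤ)] δ) z) atImInfty
        (𝓝 (∑ j : ZMod q, twistWeight ψ j * 0)) :=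
      tendsto_finsetSum _ fun j _ =>
        (isZeroAtImInfty_slash_mR_slash hf.mem (shiftX_det_pos _) δ).const_mul _
    simpa [IsZeroAtImInfty, ZeroAtFilter, Finset.sum_fn, ModularForm.SL_smul_slash,
      Pi.smul_def, smul_eq_mul] using h2

theorem qExp_twistSum (hf : IsIso ε L f) (ψ : DirichletCharacter ℂ q) (n : ℕ) :
    (qExp (twistSum ψ f)).coeff n = ψ (n : ZMod q) * (qExp f).coeff n := by
  have hQ := isQFun_of_space T_mem_GamH' hf.mem
  have hD := isQFun_of_space T_mem_GamH' (twistSum_mem hf ψ)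
  refine ((hD.coeff_unique (c := fun n => ψ (n : ZMod q) * (qExp f).coeff n)
    (fun τ => ?_) n)).symm
  have hj : ∀ j : ZMod q, HasSum (fun m : ℕ => (qExp f).coeff m *
      ((q : ℂ)⁻¹ * (twistWeight ψ j * ZMod.stdAddChar (j * (m : ZMod q)))) *
        Function.Periodic.qParam 1 τ ^ m)
      ((twistWeight ψ j • (f ∣[(1 : ℤ)] mR (shiftX q (j.val : ℤ)))) τ) := fun j => by
    rw [Pi.smul_apply, smul_eq_mul, slash_shiftX_apply, ← mul_assoc]
    have h := (hasSum_qExpansion one_pos hQ.periodic hQ.mdiff hQ.bdd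
      ((((j.val : ℤ) : ℝ) / q) +ᵥ τ)).mul_left (twistWeight ψ j * (q : ℂ)⁻¹)
    refine h.congr_fun fun m => ?_
    have hq : (q : ℂ) ≠ 0 := NeZero.ne _
    have e1 : Function.Periodic.qParam 1 (((((j.val : ℤ) : ℝ) / q) +ᵥ τ : ℍ) : ℂ) =
        ZMod.stdAddChar j * Function.Periodic.qParam 1 τ := by
      conv_rhs => rw [← ZMod.natCast_zmod_val j, ← Int.cast_natCast, ZMod.stdAddChar_coe]
      rw [UpperHalfPlane.coe_vadd, Function.Periodic.qParam, Function.Periodic.qParam,
        ← Complex.exp_add]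
      congr 1
      push_cast
      field_simp
    rw [e1, mul_pow, ← AddChar.map_nsmul_eq_pow, nsmul_eq_mul, mul_comm (m : ZMod q) j, smul_eq_mul]
    ring
  have := hasSum_sum (s := (Finset.univ : Finset (ZMod q))) fun j _ => hj j
  rw [twistSum, Finset.sum_apply]
  refine this.congr_fun fun m => ?_
  rw [← sum_twistWeight ψ (m : ZMod q), Finset.mul_sum, smul_eq_mul, Finset.sum_mul, Finset.sum_mul]
  exact Finset.sum_congr rfl fun j _ => by ring

/-- **The twist of an eigenform**, as a cusp form with the expected coefficients. -/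
theorem exists_twist {N : ℕ} [NeZero N] {ε : DirichletCharacter ℂ N} {f : CuspForm (Gamma1 N) 1}
    (hf : IsEigen N ε f) (ψ : DirichletCharacter ℂ q) :
    ∃ g : CuspForm (Gamma1 (N * q ^ 2)) 1, ∀ n : ℕ,
      ModularFormClass.qCoeff g n = ψ (n : ZMod q) * ModularFormClass.qCoeff f n := by
  have hi : IsIso ε N (f : ℍ → ℂ) := ⟨dvd_rfl, coe_mem_space f, isotypic N ε f hf⟩
  have : NeZero (N * q ^ 2) := ⟨mul_ne_zero (NeZero.ne N) (pow_ne_zero 2 (NeZero.ne q))⟩
  refine ⟨cuspOfSpace (N * q ^ 2) (twistSum ψ f) (twistSum_mem hi ψ), fun n => ?_⟩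
  show (qExp (twistSum ψ f)).coeff n = _
  rw [qExp_twistSum hi ψ n]
  rfl

end FA.LTReduce

end
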