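import Fermat.Agent.LTReduce.Congruence
import Fermat.Agent.LTReduce.Finite
import Fermat.Agent.LTReduce.Twist
import Fermat.Agent.Frob.Det
import Fermat.Agent.Weight1.Assembly
import Fermat.Agent.Weight1.CoeffRing
import Fermat.Agent.Weight1.Rankin
import Fermat.Agent.Weight1.EigenFunctional
import Fermat.Agent.Weight1.ResidualAll
import Fermat.Agent.Weight1.CountBound
import Fermat.Agent.Weight1.Lift
import Fermat.Prelude.Def_LanglandsTunnell_WeightOneRealizationCarriers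
import Fermat.Prelude.Def_GaloisRep_ModThreeCyclotomic

/-!
# Langlands–Tunnell reduced to one congruence

If some weight one eigenform is congruent modulo a place over `3` to a surjective
`ρ : Γ_ℚ → GL₂(𝔽₃)` with cyclotomic determinant, then a twist of it realises the trace of the
lift `Ψ ∘ ρ` with nebentypus `χ₋₃`, with all its coefficients in `ℤ√-2`.
-/

set_option autoImplicit false

noncomputable section

namespace FA.LTReduce

open FLT.ExplicitLift EisensteinWeightOne WeierstrassCurve CongruenceSubgroup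
open scoped MatrixGroups

local notation "Qb" => AlgebraicClosure ℚ
local notation "GQ" => AlgebraicClosure ℚ ≃ₐ[ℚ] AlgebraicClosure ℚ
local notation "ZB" => integralClosure ℤ ℂ

theorem red_apply (z : ℤ√(-2)) : red z = (z.re : ZMod 3) + (z.im : ZMod 3) * (-1) := rfl

/-- The embedding compatible with a place over `3`. -/
theorem exists_embedding {k : Type} [Field k] [CharP k 3] (φ : ZB →+* k) :
    ∃ ι : ℤ√(-2) →+* ℂ, Function.Injective ι ∧
      ∀ z, Cong φ (ι z) (ZMod.castHom (dvd_refl 3) k (red z)) := by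
  have h3 : (3 : k) = 0 := CharP.cast_eq_zero k 3
  set r : ℂ := (Real.sqrt 2 : ℂ) * Complex.I with hr
  have hr2 : r * r = ((-2 : ℤ) : ℂ) := by
    have : ((Real.sqrt 2 : ℝ) : ℂ) * (Real.sqrt 2 : ℂ) = 2 := by
      rw [← Complex.ofReal_mul, Real.mul_self_sqrt (by norm_num)]; norm_num
    rw [hr, mul_mul_mul_comm, this, Complex.I_mul_I]
    norm_num
  have hint : IsIntegral ℤ r := IsIntegral.of_pow (n := 2) two_pos (by
    rw [pow_two, hr2]; exact (isIntegral_algebraMap (x := (-2 : ℤ))))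
  obtain ⟨c, hc⟩ := exists_cong_of_isIntegral (φ := φ) hint
  have hcc : c * c = 1 := by
    have hneg := cong_intCast (φ := φ) (-2)
    rw [← hr2] at hneg
    have := (hc.mul hc).unique hneg
    push_cast at this
    linear_combination this - h3
  obtain ⟨r', hr', hcr⟩ : ∃ r' : ℂ, r' * r' = ((-2 : ℤ) : ℂ) ∧ Cong φ r' (-1) := by
    rcases mul_self_eq_one_iff.mp hcc with rfl | rfl
    · exact ⟨-r, by rw [neg_mul_neg, hr2], by simpa using (cong_intCast 0).sub hc⟩
    · exact ⟨r, hr2, hc⟩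
  refine ⟨Zsqrtd.lift ⟨r', hr'⟩, Zsqrtd.lift_injective _ (fun n h => ?_), fun z => ?_⟩
  · nlinarith [mul_self_nonneg n]
  · have h := (cong_intCast (φ := φ) z.re).add ((cong_intCast z.im).mul hcr)
    rw [red_apply, map_add, map_mul, map_neg, map_one, map_intCast, map_intCast]
    exact h

theorem det_lift_cases (Ψ : GL (Fin 2) (ZMod 3) →* GL (Fin 2) (ℤ√(-2)))
    (g : GL (Fin 2) (ZMod 3)) : (Ψ g).val.det = 1 ∨ (Ψ g).val.det = -1 := by
  have h : IsUnit (Ψ g).val.det := (Matrix.isUnit_iff_isUnit_det _).mp (Ψ g).isUnit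
  have hn := (Zsqrtd.norm_eq_one_iff' (by norm_num) _).mpr h
  generalize (Ψ g).val.det = z at hn ⊢
  obtain ⟨a, b⟩ := z
  simp only [Zsqrtd.norm_def] at hn
  have hb : b = 0 := by
    by_contra hb
    nlinarith [mul_self_nonneg a, mul_self_pos.mpr hb]
  subst hb
  rcases mul_self_eq_one_iff.mp (show a * a = 1 by linarith) with rfl | rfl
  · exact Or.inl rfl
  · exact Or.inr rfl

theorem map_red_det {Ψ : GL (Fin 2) (ZMod 3) →* GL (Fin 2) (ℤ√(-2))}
    (hΨ : ∀ g, Matrix.GeneralLinearGroup.map red (Ψ g) = g) (g : GL (Fin 2) (ZMod 3)) :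
    red (Ψ g).val.det = g.val.det ∧ red (Ψ g).val.trace = g.val.trace := by
  have h : (Ψ g).val.map red = g.val := congrArg Units.val (hΨ g)
  refine ⟨?_, ?_⟩
  · rw [RingHom.map_det, RingHom.mapMatrix_apply, h]
  · rw [← h, Matrix.trace_fin_two, Matrix.trace_fin_two, map_add]
    rfl

/-- A recursion with values in a subring. -/
theorem mem_of_recursion {A : Type} [CommRing A] (T : Subring A) (c e : ℕ → A)
    (h0 : c 0 ∈ T) (h1 : c 1 ∈ T) (he : ∀ ℓ : ℕ, ℓ.Prime → e ℓ ∈ T)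
    (hp : ∀ ℓ : ℕ, ℓ.Prime → c ℓ ∈ T)
    (hrec : ∀ ℓ : ℕ, ℓ.Prime → ∀ n : ℕ,
      c (ℓ * n) + e ℓ * (if ℓ ∣ n then c (n / ℓ) else 0) = c ℓ * c n) (n : ℕ) : c n ∈ T := by
  induction n using Nat.strong_induction_on with
  | _ n ih =>
    by_cases hn0 : n = 0
    · exact hn0 ▸ h0
    by_cases hn1 : n = 1
    · exact hn1 ▸ h1
    obtain ⟨ℓ, hℓ, m, rfl⟩ := Nat.exists_prime_and_dvd hn1
    have hm : 0 < m := Nat.pos_of_ne_zero fun h => hn0 (by rw [h, mul_zero])
    rw [eq_sub_of_add_eq (hrec ℓ hℓ m)]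
    refine T.sub_mem (T.mul_mem (hp ℓ hℓ) (ih m ?_)) (T.mul_mem (he ℓ hℓ) ?_)
    · calc m = 1 * m := (one_mul m).symm
        _ < ℓ * m := Nat.mul_lt_mul_of_pos_right hℓ.one_lt hm
    · split_ifs with hd
      · refine ih _ ((Nat.div_le_self m ℓ).trans_lt ?_)
        calc m = 1 * m := (one_mul m).symm
          _ < ℓ * m := Nat.mul_lt_mul_of_pos_right hℓ.one_lt hm
      · exact T.zero_mem

/-- `χ₋₃` as a character modulo `3`. -/
def chi3 : DirichletCharacter ℂ 3 := (quadraticChar (ZMod 3)).ringHomComp (Int.castRingHom ℂ)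

theorem chi3_natCast (n : ℕ) : chi3 (n : ZMod 3) = ((chiNegThree n : ℤ) : ℂ) := by
  have key : quadraticChar (ZMod 3) (n : ZMod 3) = chiNegThree n := by
    rw [← ZMod.natCast_mod n 3]
    have := Nat.mod_lt n (show 3 > 0 by norm_num)
    unfold chiNegThree
    interval_cases h : n % 3 <;> simp [quadraticChar_apply, quadraticCharFun]
    decide
  show Int.castRingHom ℂ (quadraticChar (ZMod 3) (n : ZMod 3)) = _
  rw [key]
  rfl

theorem chiNegThree_sq {n : ℕ} (h : ¬ 3 ∣ n) :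
    (chiNegThree n = 1 ∨ chiNegThree n = -1) ∧ ((chiNegThree n : ℤ) : ZMod 3) = (n : ZMod 3) := by
  rw [← ZMod.natCast_mod n 3]
  have h0 : n % 3 ≠ 0 := fun e => h (Nat.dvd_of_mod_eq_zero e)
  have := Nat.mod_lt n (show 3 > 0 by norm_num)
  unfold chiNegThree
  interval_cases h : n % 3 <;> simp_all
  decide

/-- **Langlands–Tunnell from one congruence.** If the traces of `ρ` are congruent, at almost all
primes and modulo some place over `3`, to the eigenvalues of some weight one eigenform, then the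
conclusion of the exact Langlands–Tunnell statement holds. -/
theorem exists_weightOne_lift_of_congruence
    (ρ : GQ →* GL (Fin 2) (ZMod 3)) (hρ : Continuous ρ) (hsurj : Function.Surjective ρ)
    (hdet : ∀ σ : GQ, Matrix.GeneralLinearGroup.det (ρ σ) = modThreeCyclotomicChar σ)
    (Ψ : GL (Fin 2) (ZMod 3) →* GL (Fin 2) (ℤ√(-2)))
    (hΨ : ∀ g, Matrix.GeneralLinearGroup.map red (Ψ g) = g)
    (N : ℕ) [NeZero N] (ε : DirichletCharacter ℂ N) (f : CuspForm (Gamma1 N) 1)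
    (hf : FA.Weight1.IsEigen N ε f)
    (k : Type) [Field k] [CharP k 3] (φ : ZB →+* k) (S : Finset ℕ)
    (hcong : ∀ p : ℕ, p.Prime → p ∉ S → ∀ A : ValuationSubring Qb,
      A.LiesOverPrime p → ∀ σ : GQ, A.IsFrobeniusAt σ p →
        ∃ a : ZB, (a : ℂ) = ModularFormClass.qCoeff f p ∧
          φ a = ZMod.castHom (dvd_refl 3) k (ρ σ).val.trace) :
    ∃ (N : ℕ) (_ : NeZero N) (b : ℕ → ℤ√(-2)),
      FormalHecke.IsEigensystem
        (fun ℓ => if ℓ ∣ N then 0 else ((chiNegThree ℓ : ℤ) : ℤ√(-2))) b ∧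
      CuspForm.IsWeightOneChiNegThreeRealized N b ∧
      ∀ p : ℕ, p.Prime → ¬ p ∣ 3 * N →
        ∀ A : ValuationSubring Qb, A.LiesOverPrime p →
          ∀ σ : GQ, A.IsFrobeniusAt σ p →
            b p = ((Ψ (ρ σ) : GL (Fin 2) (ℤ√(-2))) : Matrix (Fin 2) (Fin 2) (ℤ√(-2))).trace := by
  classical
  -- the representation of `f`
  obtain ⟨R, hR, -, hRp⟩ := FA.Weight1.deligneSerreOne_of FA.Weight1.coeffRing
    FA.Weight1.conjugates FA.Weight1.rankinBound FA.Weight1.symDensity FA.Weight1.eigenFunctional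
    FA.Weight1.residualAttached FA.Weight1.countBound FA.Weight1.liftToComplex N ε f hf
  have := FA.Weight1.finite_range_of_finite_level hR
  have hker : IsOpen (ρ.ker : Set GQ) := (isOpen_discrete {(1 : GL (Fin 2) (ZMod 3))}).preimage hρ
  have hagree : ∀ p : ℕ, p.Prime → p ∉ S ∪ N.primeFactors → ∀ A : ValuationSubring Qb,
      A.LiesOverPrime p → ∀ σ : GQ, A.IsFrobeniusAt σ p → Agree φ R ρ σ := by
    intro p hp hpS A hA σ hσ
    rw [Finset.mem_union, not_or] at hpS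
    have hpN : ¬ p ∣ N := fun h => hpS.2 (Nat.mem_primeFactors.mpr ⟨hp, h, NeZero.ne N⟩)
    obtain ⟨a, ha, ha'⟩ := hcong p hp hpS.1 A hA σ hσ
    exact ⟨a, by rw [ha, ((hRp p hp hpN A hA).2 σ hσ).1], ha'⟩
  have hRc : CongRep φ R ρ := cong_trace_det hR hker hsurj _ hagree
  -- the lift
  obtain ⟨ι, hinj, hι⟩ := exists_embedding φ
  let Lc : GL (Fin 2) (ZMod 3) →* GL (Fin 2) ℂ := (Matrix.GeneralLinearGroup.map ι).comp Ψ
  have hLt : ∀ g, (Lc g).val.trace = ι (Ψ g).val.trace := fun g => by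
    show ((Ψ g).val.map ι).trace = _
    rw [Matrix.trace_fin_two, Matrix.trace_fin_two, map_add]
    rfl
  have hLd : ∀ g, (Lc g).val.det = ι (Ψ g).val.det := fun g => by
    rw [RingHom.map_det]
    rfl
  obtain ⟨i, hi⟩ := exists_exponent hRc hsurj Lc
    (fun g => ⟨by rw [hLt, ← (map_red_det hΨ g).2]; exact hι _,
      by rw [hLd, ← (map_red_det hΨ g).1]; exact hι _⟩)
    (fun g => by
      rcases det_lift_cases Ψ g with e | e
      · exact Or.inl (by rw [hLd, e, map_one])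
      · exact Or.inr (by rw [hLd, e, map_neg, map_one]))
  -- the twisting character
  have : NeZero (3 * N) := ⟨mul_ne_zero (by norm_num) (NeZero.ne N)⟩
  let δ : DirichletCharacter ℂ (3 * N) := DirichletCharacter.changeLevel (dvd_mul_left N 3) ε *
    DirichletCharacter.changeLevel (dvd_mul_right 3 N) chi3
  let ψ : DirichletCharacter ℂ (3 * N) := δ ^ i
  obtain ⟨g, hg⟩ := exists_twist hf ψ
  set c : ℕ → ℂ := fun n => ModularFormClass.qCoeff g n with hc
  have hunit : ∀ p : ℕ, p.Prime → ¬ p ∣ 3 * N → IsUnit (p : ZMod (3 * N)) := fun p hp hpM =>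
    (ZMod.isUnit_iff_coprime p (3 * N)).mpr (hp.coprime_iff_not_dvd.mpr hpM)
  have hδp : ∀ p : ℕ, p.Prime → ¬ p ∣ 3 * N →
      δ (p : ZMod (3 * N)) = ε (p : ZMod N) * ((chiNegThree p : ℤ) : ℂ) := fun p hp hpM => by
    have hcast : ∀ (m : ℕ) (hm : m ∣ 3 * N),
        ZMod.castHom hm (ZMod m) (p : ZMod (3 * N)) = (p : ZMod m) := fun m hm => map_natCast _ p
    show (DirichletCharacter.changeLevel _ ε) _ * (DirichletCharacter.changeLevel _ chi3) _ = _
    rw [← (hunit p hp hpM).unit_spec, DirichletCharacter.changeLevel_eq_cast_of_dvd,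
      DirichletCharacter.changeLevel_eq_cast_of_dvd, (hunit p hp hpM).unit_spec]
    rw [← chi3_natCast]
    congr 2
    · exact hcast N (dvd_mul_left N 3)
    · exact hcast 3 (dvd_mul_right 3 N)
  have hψp : ∀ p : ℕ, p.Prime → ¬ p ∣ 3 * N →
      ψ (p : ZMod (3 * N)) = (ε (p : ZMod N) * ((chiNegThree p : ℤ) : ℂ)) ^ i := fun p hp hpM => by
    rw [← hδp p hp hpM, ← (hunit p hp hpM).unit_spec]
    exact MulChar.pow_apply_coe δ i _
  have hfrob : ∀ p : ℕ, p.Prime → ¬ p ∣ 3 * N → ∀ A : ValuationSubring Qb, A.LiesOverPrime p →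
      ∀ σ : GQ, A.IsFrobeniusAt σ p →
        c p = ι (Ψ (ρ σ)).val.trace ∧
          (ε (p : ZMod N) * ((chiNegThree p : ℤ) : ℂ)) ^ (2 * i + 1) = 1 := by
    intro p hp hpM A hA σ hσ
    have hp3 : p ≠ 3 := fun e => hpM (e ▸ dvd_mul_right 3 N)
    have hpN : ¬ p ∣ N := fun h => hpM (h.mul_left 3)
    obtain ⟨htr, hde⟩ := (hRp p hp hpN A hA).2 σ hσ
    have h3p : ¬ 3 ∣ p := fun h => hp3 ((Nat.prime_dvd_prime_iff_eq Nat.prime_three hp).mp h).symm
    obtain ⟨hpm, hmod⟩ := chiNegThree_sq h3p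
    have hd : (ρ σ).val.det = (p : ZMod 3) := by
      rw [← Matrix.GeneralLinearGroup.val_det_apply, hdet σ]
      exact FA.Frob.cycloChar_frobenius 3 (IsAlgClosed.card_rootsOfUnity_eq Qb 3) hp hp3 hA hσ
    have hdp : (Lc (ρ σ)).val.det = ((chiNegThree p : ℤ) : ℂ) := by
      have e := (map_red_det hΨ (ρ σ)).1
      rw [hd, ← hmod] at e
      have h12 : ((1 : ℤ) : ZMod 3) ≠ ((-1 : ℤ) : ZMod 3) := by decide
      rw [hLd]
      rcases det_lift_cases Ψ (ρ σ) with e1 | e1 <;> rcases hpm with e2 | e2 <;>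
        rw [e1, e2] at e ⊢ <;> simp only [map_one, map_neg] at e ⊢
      · simp
      · exact absurd (by simpa using e) h12
      · exact absurd (by simpa using e.symm) h12
      · simp
    obtain ⟨h1, h2⟩ := hi σ
    rw [hde, hdp] at h1 h2
    refine ⟨?_, h1⟩
    simp only [hc]
    rw [← hLt, h2, hg, hψp p hp hpM, htr]
  have hzero : ∀ n : ℕ, ¬ n.Coprime (3 * N) → c n = 0 := fun n hn => by
    simp only [hc]
    rw [hg, MulChar.map_nonunit _ (fun h => hn ((ZMod.isUnit_iff_coprime n (3 * N)).mp h)),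
      zero_mul]
  let L := N * (3 * N) ^ 2
  have hdvd : ∀ ℓ : ℕ, ℓ.Prime → (ℓ ∣ L ↔ ℓ ∣ 3 * N) := fun ℓ hℓ => by
    refine ⟨fun h => ?_, fun h => (dvd_pow h two_ne_zero).mul_left N⟩
    rcases hℓ.dvd_mul.mp h with h | h
    · exact h.mul_left 3
    · exact hℓ.dvd_of_dvd_pow h
  set e : ℕ → ℂ := fun ℓ => if ℓ ∣ L then 0 else ((chiNegThree ℓ : ℤ) : ℂ) with he
  have hrec : ∀ ℓ : ℕ, ℓ.Prime → ∀ n : ℕ,
      c (ℓ * n) + e ℓ * (if ℓ ∣ n then c (n / ℓ) else 0) = c ℓ * c n := by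
    intro ℓ hℓ n
    by_cases hM : ℓ ∣ 3 * N
    · have hn : ¬ ℓ.Coprime (3 * N) := fun h => hℓ.ne_one (h.eq_one_of_dvd hM)
      have hn' : ¬ (ℓ * n).Coprime (3 * N) := fun h => hn h.coprime_mul_right
      rw [hzero ℓ hn, hzero _ hn']
      simp [he, (hdvd ℓ hℓ).mpr hM]
    · obtain ⟨A, hA⟩ := FA.Deform.exists_liesOverPrime hℓ
      obtain ⟨σ, hσ⟩ := FA.Deform.exists_isFrobeniusAt hℓ hA
      have h1 := (hfrob ℓ hℓ hM A hA σ hσ).2
      have hℓN : ¬ ℓ ∣ N := fun h => hM (h.mul_left 3)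
      have hrel := hf.rel ℓ hℓ hℓN n
      have h3 : ¬ 3 ∣ ℓ := fun h => hM
        (((Nat.prime_dvd_prime_iff_eq Nat.prime_three hℓ).mp h) ▸ dvd_mul_right 3 N)
      simp only [he, if_neg ((hdvd ℓ hℓ).not.mpr hM), hc, hg, Nat.cast_mul, map_mul]
      set x : ℂ := ((chiNegThree ℓ : ℤ) : ℂ)
      have hx : x * x = 1 := by
        rcases (chiNegThree_sq h3).1 with e | e <;> simp [x, e]
      set E := ε (ℓ : ZMod N)
      have key : ε (ℓ : ZMod N) * ψ (ℓ : ZMod (3 * N)) ^ 2 = x := by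
        rw [hψp ℓ hℓ hM, ← pow_mul, mul_comm i 2]
        linear_combination x * h1 - E * (E * x) ^ (2 * i) * hx
      by_cases hn : ℓ ∣ n
      · rw [if_pos hn] at hrel ⊢
        obtain ⟨m, rfl⟩ := hn
        simp only [Nat.mul_div_cancel_left _ hℓ.pos, Nat.cast_mul, map_mul] at hrel ⊢
        linear_combination (ψ (ℓ : ZMod (3 * N)) ^ 2 * ψ (m : ZMod (3 * N))) * hrel -
          (ψ (m : ZMod (3 * N)) * ModularFormClass.qCoeff f m) * key
      · rw [if_neg hn] at hrel ⊢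
        linear_combination (ψ (ℓ : ZMod (3 * N)) * ψ (n : ZMod (3 * N))) * hrel
  have h0 : c 0 = 0 := hzero 0 fun h => by
    have h' : 3 * N = 1 := (Nat.coprime_zero_left (3 * N)).mp h
    omega
  have h1 : c 1 = 1 := by simp [hc, hg, hf.one]
  have hmem : ∀ n, c n ∈ ι.range := mem_of_recursion ι.range c e
    (h0 ▸ ι.range.zero_mem) (h1 ▸ ι.range.one_mem)
    (fun ℓ _ => by
      simp only [he]
      split_ifs
      · exact ι.range.zero_mem
      · exact ⟨(chiNegThree ℓ : ℤ), map_intCast ι _⟩)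
    (fun ℓ hℓ => by
      by_cases hM : ℓ ∣ 3 * N
      · rw [hzero ℓ fun h => hℓ.ne_one (h.eq_one_of_dvd hM)]; exact ι.range.zero_mem
      · obtain ⟨A, hA⟩ := FA.Deform.exists_liesOverPrime hℓ
        obtain ⟨σ, hσ⟩ := FA.Deform.exists_isFrobeniusAt hℓ hA
        exact ⟨_, ((hfrob ℓ hℓ hM A hA σ hσ).1).symm⟩)
    hrec
  choose b hb using hmem
  refine ⟨L, ⟨mul_ne_zero (NeZero.ne N) (pow_ne_zero 2 (NeZero.ne (3 * N)))⟩, b,
    ⟨hinj (by rw [hb, h1, map_one]), fun ℓ hℓ n => hinj ?_⟩, ⟨ι, g, fun n => (congrFun hc n).symm.trans (hb n).symm⟩,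
    fun p hp hpL A hA σ hσ => hinj ?_⟩
  · have := hrec ℓ hℓ n
    simp only [he] at this
    rw [map_add, map_mul, map_mul, hb, hb, hb, apply_ite ι, apply_ite ι, map_zero, map_intCast, hb]
    exact this
  · rw [hb]
    refine (hfrob p hp (fun h => hpL ?_) A hA σ hσ).1
    exact ((hdvd p hp).mpr h).mul_left 3

end FA.LTReduce

end
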